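import Mathlib.Analysis.Normed.Group.Constructions
import Mathlib.Analysis.Normed.Group.Int
import Mathlib.Analysis.SpecialFunctions.Pow.Real
import Mathlib.Data.Fintype.Pigeonhole
import Mathlib.Data.ZMod.Basic

/-!
# Transference between simultaneous approximation and small linear forms

A good simultaneous approximation `p / q` gives by the pigeonhole principle an `m` with
`q ∣ m · p`, so a small value of `m · x + n`; a small value gives in the same way a `q` with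
`q n + m · p = 0` and good approximations in all coordinates but the one of the largest `m i`.
-/

set_option autoImplicit false

noncomputable section

open Finset

namespace FA.Transference

variable {d : ℕ}

theorem one_le_norm_intVector {m : Fin d → ℤ} (hm : m ≠ 0) : 1 ≤ ‖m‖ := by
  obtain ⟨i, hi⟩ := Function.ne_iff.1 hm
  refine le_trans ?_ (norm_le_pi_norm m i)
  rw [Int.norm_eq_abs]
  exact_mod_cast Int.one_le_abs hi

theorem exists_norm_eq_apply (hd : 0 < d) (m : Fin d → ℤ) : ∃ i, ‖m‖ = |(m i : ℝ)| := by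
  obtain ⟨i, -, hi⟩ := exists_max_image univ (fun i => ‖m i‖) ⟨⟨0, hd⟩, mem_univ _⟩
  exact ⟨i, (Int.norm_eq_abs (m i)) ▸ le_antisymm
    ((pi_norm_le_iff_of_nonneg (norm_nonneg _)).2 fun j => hi j (mem_univ j)) (norm_le_pi_norm m i)⟩

/-- From `q x - p` small to `m · x + n` small, with `‖m‖ ^ d ≤ q`. -/
theorem exists_linearForm_of_simultaneous (hd : 0 < d) {q : ℕ} (hq : 0 < q) {x : Fin d → ℝ}
    {p : Fin d → ℤ} {η : ℝ} (h : ∀ i, |(q : ℝ) * x i - p i| ≤ η) :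
    ∃ (m : Fin d → ℤ) (n : ℤ), m ≠ 0 ∧ ‖m‖ ^ d ≤ q ∧
      |∑ i, (m i : ℝ) * x i + n| ≤ d * ‖m‖ * η / q := by
  have hex : ∃ M, q < (M + 1) ^ d :=
    ⟨q, (Nat.lt_succ_self q).trans_le (Nat.le_self_pow hd.ne' _)⟩
  obtain ⟨M, hM, hmin⟩ : ∃ M, q < (M + 1) ^ d ∧ M ^ d ≤ q := by
    refine ⟨Nat.find hex, Nat.find_spec hex, ?_⟩
    rcases Nat.eq_zero_or_pos (Nat.find hex) with h0 | h0
    · simp [h0, zero_pow hd.ne']
    · have := not_lt.1 (Nat.find_min hex (Nat.sub_one_lt h0.ne'))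
      rwa [Nat.sub_add_cancel h0] at this
  have : NeZero q := ⟨hq.ne'⟩
  obtain ⟨v, w, hvw, he⟩ := Fintype.exists_ne_map_eq_of_card_lt
    (fun v : Fin d → Fin (M + 1) => ((∑ i, p i * ((v i : ℕ) : ℤ) : ℤ) : ZMod q))
    (by simpa [ZMod.card] using hM)
  set m : Fin d → ℤ := fun i => ((v i : ℕ) : ℤ) - ((w i : ℕ) : ℤ) with hm
  obtain ⟨k, hk⟩ : (q : ℤ) ∣ ∑ i, p i * m i := by
    rw [← ZMod.intCast_zmod_eq_zero_iff_dvd]
    simp only [hm, mul_sub, sum_sub_distrib, Int.cast_sub]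
    exact sub_eq_zero.2 he
  have hm0 : m ≠ 0 := fun h0 => hvw (funext fun i => by
    have hi : m i = 0 := congrFun h0 i
    simp only [hm] at hi
    exact Fin.ext (by omega))
  have hnorm : ‖m‖ ≤ M := by
    refine (pi_norm_le_iff_of_nonneg (Nat.cast_nonneg M)).2 fun i => ?_
    have h1 : |m i| ≤ (M : ℤ) := by
      have := (v i).isLt
      have := (w i).isLt
      simp only [hm, abs_le]
      omega
    rw [Int.norm_eq_abs]
    exact_mod_cast h1
  refine ⟨m, -k, hm0, (pow_le_pow_left₀ (norm_nonneg _) hnorm d).trans (by exact_mod_cast hmin), ?_⟩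
  have hqR : (0 : ℝ) < q := Nat.cast_pos.2 hq
  have hkR : (∑ i, (p i : ℝ) * m i) = (q : ℝ) * k := by exact_mod_cast hk
  have e : ∑ i, (m i : ℝ) * x i + ((-k : ℤ) : ℝ) =
      (∑ i, (m i : ℝ) * ((q : ℝ) * x i - p i)) / q := by
    rw [eq_div_iff hqR.ne', Int.cast_neg, add_mul, sum_mul, neg_mul, mul_comm (k : ℝ), ← hkR,
      ← sum_neg_distrib, ← sum_add_distrib]
    exact sum_congr rfl fun i _ => by ring
  rw [e, abs_div, abs_of_pos hqR]
  refine div_le_div_of_nonneg_right ((abs_sum_le_sum_abs _ _).trans ?_) hqR.le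
  refine (sum_le_card_nsmul _ _ (‖m‖ * η) fun i _ => ?_).trans_eq ?_
  · rw [abs_mul, ← Int.norm_eq_abs]
    exact mul_le_mul (norm_le_pi_norm m i) (h i) (abs_nonneg _) (norm_nonneg _)
  · rw [card_univ, Fintype.card_fin, nsmul_eq_mul, mul_assoc]

/-- From `m · x + n` small to `D x - p` small, with `D ≤ ‖m‖ N ^ (d - 1)`. -/
theorem exists_simultaneous_of_linearForm (hd : 0 < d) {x : Fin d → ℝ} {m : Fin d → ℤ}
    (hm : m ≠ 0) {n : ℤ} {δ : ℝ} (h : |∑ i, (m i : ℝ) * x i + n| ≤ δ) {N : ℕ} (hN : 0 < N) :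
    ∃ (D : ℕ) (p : Fin d → ℤ), 0 < D ∧ (D : ℝ) ≤ ‖m‖ * (N : ℝ) ^ (d - 1) ∧
      ∀ i, |(D : ℝ) * x i - p i| ≤ D * δ / ‖m‖ + d / N := by
  classical
  obtain ⟨i₀, hi₀⟩ := exists_norm_eq_apply hd m
  have hnorm : 0 < ‖m‖ := zero_lt_one.trans_le (one_le_norm_intVector hm)
  have hm₀ : m i₀ ≠ 0 := fun h0 => by simp [hi₀, h0] at hnorm
  set M := (m i₀).natAbs with hM
  have hMR : (M : ℝ) = ‖m‖ := by rw [hi₀, hM, Nat.cast_natAbs, Int.cast_abs]
  have : NeZero M := ⟨Int.natAbs_ne_zero.2 hm₀⟩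
  set res : ℕ → ℤ := fun q => q * n + ∑ i ∈ univ.erase i₀, m i * ⌊(q : ℝ) * x i⌋ with hres
  have hbox : ∀ (q : ℕ) (i : Fin d), ⌊Int.fract ((q : ℝ) * x i) * N⌋₊ < N := fun q i => by
    rw [Nat.floor_lt (mul_nonneg (Int.fract_nonneg _) (Nat.cast_nonneg _))]
    exact mul_lt_of_lt_one_left (by exact_mod_cast hN) (Int.fract_lt_one _)
  set f : Fin (M * N ^ (d - 1) + 1) → ZMod M × ({i : Fin d // i ≠ i₀} → Fin N) :=
    fun q => (((res (q : ℕ) : ℤ) : ZMod M), fun i => ⟨_, hbox (q : ℕ) i⟩) with hf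
  obtain ⟨a, b, hab, he⟩ := Fintype.exists_ne_map_eq_of_card_lt f (by
    simp [ZMod.card, Fintype.card_subtype_compl])
  wlog hlt : a < b generalizing a b
  · exact this b a hab.symm he.symm (lt_of_le_of_ne (not_lt.1 hlt) hab.symm)
  simp only [hf, Prod.mk.injEq, funext_iff, Fin.ext_iff] at he
  obtain ⟨he1, he2⟩ := he
  obtain ⟨k, hk⟩ : m i₀ ∣ res (b : ℕ) - res (a : ℕ) := by
    rw [← Int.natAbs_dvd, ← hM]
    exact (ZMod.intCast_eq_intCast_iff_dvd_sub _ _ M).1 he1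
  set D : ℕ := (b : ℕ) - (a : ℕ) with hD
  have hle : (a : ℕ) ≤ (b : ℕ) := le_of_lt hlt
  have hDR : (D : ℝ) = ((b : ℕ) : ℝ) - ((a : ℕ) : ℝ) := by rw [hD, Nat.cast_sub hle]
  set P : Fin d → ℤ := fun i =>
    if i = i₀ then -k else ⌊((b : ℕ) : ℝ) * x i⌋ - ⌊((a : ℕ) : ℝ) * x i⌋ with hP
  have hDpos : 0 < D := Nat.sub_pos_of_lt hlt
  have hothers : ∀ i, i ≠ i₀ → |(D : ℝ) * x i - P i| ≤ 1 / N := fun i hi => by
    have hNR : (0 : ℝ) < N := by exact_mod_cast hN
    have h0 : ∀ q : ℕ, 0 ≤ Int.fract ((q : ℝ) * x i) * N :=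
      fun q => mul_nonneg (Int.fract_nonneg _) hNR.le
    have h1 := he2 ⟨i, hi⟩
    simp only at h1
    have h2 : |Int.fract (((a : ℕ) : ℝ) * x i) * N - Int.fract (((b : ℕ) : ℝ) * x i) * N| < 1 :=
      Int.abs_sub_lt_one_of_floor_eq_floor (by
        rw [← Int.natCast_floor_eq_floor (h0 _), ← Int.natCast_floor_eq_floor (h0 _), h1])
    rw [← sub_mul, abs_mul, abs_of_pos hNR, ← lt_div_iff₀ hNR, abs_sub_comm] at h2
    refine le_of_eq_of_le ?_ h2.le
    simp only [hP, if_neg hi, Int.fract, hDR, Int.cast_sub]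
    ring_nf
  refine ⟨D, P, hDpos, ?_, fun i => ?_⟩
  · have : D ≤ M * N ^ (d - 1) := (Nat.sub_le _ _).trans (Nat.lt_succ_iff.1 b.isLt)
    rw [← hMR]
    exact_mod_cast this
  by_cases hi : i = i₀
  swap
  · refine (hothers i hi).trans (le_add_of_nonneg_of_le ?_ ?_)
    · exact div_nonneg (mul_nonneg (Nat.cast_nonneg _) ((abs_nonneg _).trans h)) hnorm.le
    · exact div_le_div_of_nonneg_right (by exact_mod_cast hd) (Nat.cast_nonneg _)
  subst hi
  -- the coordinate of the largest `m i`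
  have hkey : (D : ℝ) * n + ∑ j ∈ univ.erase i, (m j : ℝ) * P j = -((m i : ℝ) * P i) := by
    have hZ : (D : ℤ) * n + ∑ j ∈ univ.erase i, m j * P j = -(m i * P i) := by
      rw [show P i = -k by simp [hP], mul_neg, neg_neg, ← hk, hres, hD, Nat.cast_sub hle,
        sum_congr rfl fun j hj => show m j * P j = m j * ⌊((b : ℕ) : ℝ) * x j⌋ -
          m j * ⌊((a : ℕ) : ℝ) * x j⌋ by simp [hP, ne_of_mem_erase hj, mul_sub],
        sum_sub_distrib]
      ring
    exact_mod_cast hZ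
  have e : (m i : ℝ) * ((D : ℝ) * x i - P i) = (D : ℝ) * (∑ j, (m j : ℝ) * x j + n) -
      ∑ j ∈ univ.erase i, (m j : ℝ) * ((D : ℝ) * x j - P j) := by
    rw [← add_sum_erase univ _ (mem_univ i)]
    simp only [mul_sub, sum_sub_distrib]
    rw [show ∑ j ∈ univ.erase i, (m j : ℝ) * ((D : ℝ) * x j) =
      (D : ℝ) * ∑ j ∈ univ.erase i, (m j : ℝ) * x j by
        rw [mul_sum]; exact sum_congr rfl fun j _ => by ring]
    linarith
  have hbound : ‖m‖ * |(D : ℝ) * x i - P i| ≤ ‖m‖ * (D * δ / ‖m‖ + d / N) := by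
    rw [mul_add, mul_div_cancel₀ _ hnorm.ne']
    conv_lhs => rw [hi₀, ← abs_mul, e]
    refine (abs_sub _ _).trans (add_le_add ?_ ((abs_sum_le_sum_abs _ _).trans ?_))
    · rw [abs_mul, Nat.abs_cast]
      exact mul_le_mul_of_nonneg_left h (Nat.cast_nonneg _)
    · refine (sum_le_card_nsmul _ _ (‖m‖ * (1 / N)) fun j hj => ?_).trans ?_
      · rw [abs_mul, ← Int.norm_eq_abs]
        exact mul_le_mul (norm_le_pi_norm m j) (hothers j (ne_of_mem_erase hj)) (abs_nonneg _)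
          (norm_nonneg _)
      · rw [nsmul_eq_mul, card_erase_of_mem (mem_univ i), card_univ, Fintype.card_fin,
          mul_left_comm, mul_one_div]
        exact mul_le_mul_of_nonneg_left (div_le_div_of_nonneg_right
          (by exact_mod_cast Nat.sub_le d 1) (Nat.cast_nonneg _)) (norm_nonneg _)
  exact le_of_mul_le_mul_left hbound hnorm

end FA.Transference
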