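import Fermat.Agent.Transference.Basic
import Mathlib.Analysis.SpecialFunctions.Pow.Asymptotics

/-!
# Khintchine's transference principle

If infinitely many `q` approximate `x` with exponent `w`, then infinitely many linear forms are
small with every exponent below `d w + d - 1`; exponent `w` for the forms gives every exponent
below `w / ((d - 1) w + d)` for simultaneous approximation.
-/

set_option autoImplicit false

noncomputable section

open Finset Filter Topology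

namespace FA.Transference

variable {d : ℕ}

/-- The `q` with `|q x i - p i| ≤ q ^ (-w)` for some integral `p`. -/
def simSet (x : Fin d → ℝ) (w : ℝ) : Set ℕ :=
  {q | 0 < q ∧ ∃ p : Fin d → ℤ, ∀ i, |(q : ℝ) * x i - p i| ≤ (q : ℝ) ^ (-w)}

/-- The nonzero `m` with `|m · x + n| ≤ ‖m‖ ^ (-w)` for some integer `n`. -/
def formSet (x : Fin d → ℝ) (w : ℝ) : Set (Fin d → ℤ) :=
  {m | m ≠ 0 ∧ ∃ n : ℤ, |∑ i, (m i : ℝ) * x i + n| ≤ ‖m‖ ^ (-w)}

theorem formSet_infinite_of_small {x : Fin d → ℝ} {w : ℝ}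
    (h : ∀ ε : ℝ, 0 < ε →
      ∃ m ∈ formSet x w, ∃ n : ℤ, |∑ i, (m i : ℝ) * x i + n| < ε) :
    (formSet x w).Infinite := by
  intro hfin
  set g : (Fin d → ℤ) → ℝ :=
    fun m => |∑ i, (m i : ℝ) * x i - round (∑ i, (m i : ℝ) * x i)| with hg
  obtain ⟨m₁, hm₁, -⟩ := h 1 one_pos
  obtain ⟨m₀, hm₀, hmin⟩ := Set.exists_min_image _ g hfin ⟨m₁, hm₁⟩
  rcases (abs_nonneg _ : 0 ≤ g m₀).eq_or_lt with h0 | h0
  · -- an exact relation has infinitely many multiples
    refine hfin.not_infinite (Set.infinite_of_injective_forall_mem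
      (f := fun k : ℕ => ((k : ℤ) + 1) • m₀) (fun a b e => ?_) fun k => ?_)
    · obtain ⟨i, hi⟩ := Function.ne_iff.1 hm₀.1
      have := congrFun e i
      simp only [Pi.smul_apply, smul_eq_mul] at this
      have := mul_right_cancel₀ hi this
      omega
    · refine ⟨smul_ne_zero (by omega) hm₀.1,
        ((k : ℤ) + 1) * -round (∑ i, (m₀ i : ℝ) * x i), ?_⟩
      refine le_of_eq_of_le ?_ (Real.rpow_nonneg (norm_nonneg _) _)
      have e := abs_eq_zero.1 h0.symm
      rw [abs_eq_zero]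
      simp only [Pi.smul_apply, smul_eq_mul, Int.cast_mul, Int.cast_add, Int.cast_natCast,
        Int.cast_one, Int.cast_neg, mul_assoc, ← mul_sum, ← mul_add, mul_eq_zero]
      exact Or.inr (by linarith)
  · obtain ⟨m, hm, n, hn⟩ := h _ h0
    have h1 := round_le (∑ i, (m i : ℝ) * x i) (-n)
    rw [Int.cast_neg, sub_neg_eq_add] at h1
    exact absurd ((hmin m hm).trans h1) (not_le.2 hn)

theorem simSet_infinite_of_small {x : Fin d → ℝ} {w : ℝ}
    (h : ∀ ε : ℝ, 0 < ε →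
      ∃ q ∈ simSet x w, ∃ p : Fin d → ℤ, ∀ i, |(q : ℝ) * x i - p i| < ε) :
    (simSet x w).Infinite := by
  intro hfin
  set g : ℕ → ℝ := fun q => ‖fun i => (q : ℝ) * x i - round ((q : ℝ) * x i)‖ with hg
  obtain ⟨q₁, hq₁, -⟩ := h 1 one_pos
  obtain ⟨q₀, hq₀, hmin⟩ := Set.exists_min_image _ g hfin ⟨q₁, hq₁⟩
  rcases (norm_nonneg _ : 0 ≤ g q₀).eq_or_lt with h0 | h0
  · -- a rational point has infinitely many denominators
    refine hfin.not_infinite (Set.infinite_of_injective_forall_mem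
      (f := fun k : ℕ => (k + 1) * q₀)
      (fun a b e => by simpa [hq₀.1.ne'] using e) fun k => ?_)
    refine ⟨mul_pos (Nat.succ_pos k) hq₀.1,
      fun i => ((k : ℤ) + 1) * round ((q₀ : ℝ) * x i), fun i => ?_⟩
    refine le_of_eq_of_le ?_ (Real.rpow_nonneg (Nat.cast_nonneg _) _)
    have e : (q₀ : ℝ) * x i - round ((q₀ : ℝ) * x i) = 0 := congrFun (norm_eq_zero.1 h0.symm) i
    rw [abs_eq_zero]
    simp only [Nat.cast_mul, Nat.cast_add, Nat.cast_one, Int.cast_mul, Int.cast_add,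
      Int.cast_natCast, Int.cast_one, mul_assoc, ← mul_sub, e, mul_zero]
  · obtain ⟨q, hq, p, hp⟩ := h _ h0
    refine absurd (hmin q hq) (not_le.2 ((pi_norm_lt_iff h0).2 fun i => ?_))
    exact (round_le ((q : ℝ) * x i) (p i)).trans_lt (hp i)

theorem tendsto_mul_rpow_neg (C : ℝ) {a : ℝ} (ha : 0 < a) :
    Tendsto (fun t : ℝ => C * t ^ (-a)) atTop (𝓝 0) := by
  simpa using (tendsto_rpow_neg_atTop ha).const_mul C

/-- From simultaneous approximation to linear forms. -/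
theorem formSet_infinite_of_simSet (hd : 0 < d) {x : Fin d → ℝ} {w : ℝ}
    (h : (simSet x w).Infinite) {w' : ℝ} (hw' : w' < d * w + d - 1) :
    (formSet x w').Infinite := by
  rcases le_or_gt w' 0 with h0 | h0
  · refine Set.infinite_of_injective_forall_mem
      (f := fun k : ℕ => (Pi.single ⟨0, hd⟩ ((k : ℤ) + 1) : Fin d → ℤ))
      (fun a b e => ?_) fun k => ?_
    · have := congrFun e ⟨0, hd⟩
      simp only [Pi.single_eq_same] at this
      omega
    · have hne : (Pi.single ⟨0, hd⟩ ((k : ℤ) + 1) : Fin d → ℤ) ≠ 0 :=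
        Pi.single_ne_zero_iff.2 (by omega)
      refine ⟨hne, -round (∑ i, ((Pi.single ⟨0, hd⟩ ((k : ℤ) + 1) : Fin d → ℤ) i : ℝ) * x i),
        ?_⟩
      rw [Int.cast_neg, ← sub_eq_add_neg]
      exact (abs_sub_round _).trans ((by norm_num : (1 / 2 : ℝ) ≤ 1).trans
        (Real.one_le_rpow (one_le_norm_intVector hne) (by linarith)))
  have hdR : (0 : ℝ) < d := by exact_mod_cast hd
  set e : ℝ := w + 1 - 1 / d with he
  have hee : w' / d < e := by
    rw [div_lt_iff₀ hdR, he, sub_mul, one_div_mul_cancel hdR.ne']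
    linarith
  refine formSet_infinite_of_small fun ε hε => ?_
  obtain ⟨Q, hQ⟩ := eventually_atTop.1 ((tendsto_natCast_atTop_atTop.eventually
    ((tendsto_mul_rpow_neg (d : ℝ) (sub_pos.2 hee)).eventually_le_const zero_lt_one)).and
    (tendsto_natCast_atTop_atTop.eventually ((tendsto_mul_rpow_neg (d : ℝ)
      ((div_pos h0 hdR).trans hee)).eventually_lt_const hε)))
  obtain ⟨q, ⟨hq, p, hp⟩, hqQ⟩ := h.exists_gt Q
  obtain ⟨hQ1, hQ2⟩ := hQ q hqQ.le
  obtain ⟨m, n, hm, hmq, hmn⟩ := exists_linearForm_of_simultaneous hd hq hp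
  have hqR : (0 : ℝ) < q := Nat.cast_pos.2 hq
  have hm1 : ‖m‖ ≤ (q : ℝ) ^ (1 / (d : ℝ)) := by
    have := Real.rpow_le_rpow (pow_nonneg (norm_nonneg m) d) hmq (by positivity : (0 : ℝ) ≤ 1 / d)
    rwa [one_div, Real.pow_rpow_inv_natCast (norm_nonneg _) hd.ne', ← one_div] at this
  have hsmall : |∑ i, (m i : ℝ) * x i + n| ≤ d * (q : ℝ) ^ (-e) := by
    refine hmn.trans ?_
    rw [show -e = 1 / (d : ℝ) + -w - 1 by rw [he]; ring, Real.rpow_sub hqR, Real.rpow_add hqR,
      Real.rpow_one, mul_div_assoc', ← mul_assoc]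
    gcongr
  refine ⟨m, ⟨hm, n, hsmall.trans ?_⟩, n, hsmall.trans_lt hQ2⟩
  calc (d : ℝ) * (q : ℝ) ^ (-e) = d * (q : ℝ) ^ (-(e - w' / d)) * (q : ℝ) ^ (-(w' / d)) := by
        rw [mul_assoc, ← Real.rpow_add hqR]
        ring_nf
    _ ≤ 1 * (q : ℝ) ^ (-(w' / d)) := by gcongr
    _ = ((q : ℝ) ^ (1 / (d : ℝ))) ^ (-w') := by
        rw [one_mul, ← Real.rpow_mul hqR.le]
        ring_nf
    _ ≤ _ := Real.rpow_le_rpow_of_nonpos (zero_lt_one.trans_le (one_le_norm_intVector hm)) hm1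
        (by linarith)

theorem exists_norm_gt {S : Set (Fin d → ℤ)} (h : S.Infinite) (R : ℝ) : ∃ m ∈ S, R < ‖m‖ := by
  by_contra! hall
  refine h ((Set.Finite.pi fun _ => Set.finite_Icc (-⌈R⌉) ⌈R⌉).subset fun m hm i _ => ?_)
  have h1 := (norm_le_pi_norm m i).trans ((hall m hm).trans (Int.le_ceil R))
  rw [Int.norm_eq_abs] at h1
  exact Set.mem_Icc.2 (abs_le.1 (by exact_mod_cast h1 : |m i| ≤ ⌈R⌉))

/-- From linear forms to simultaneous approximation. -/
theorem simSet_infinite_of_formSet (hd : 0 < d) {x : Fin d → ℝ} {w : ℝ} (hw : 0 ≤ w)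
    (h : (formSet x w).Infinite) {w' : ℝ} (hw' : w' < w / (((d : ℝ) - 1) * w + d)) :
    (simSet x w').Infinite := by
  rcases le_or_gt w' 0 with h0 | h0
  · refine Set.infinite_of_injective_forall_mem (f := fun k : ℕ => k + 1)
      (fun a b e => Nat.succ_injective e) fun k => ?_
    refine ⟨Nat.succ_pos k, fun i => round (((k + 1 : ℕ) : ℝ) * x i), fun i => ?_⟩
    exact (abs_sub_round _).trans ((by norm_num : (1 / 2 : ℝ) ≤ 1).trans
      (Real.one_le_rpow (Nat.one_le_cast.2 (Nat.succ_pos k)) (by linarith)))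
  have hdR : (1 : ℝ) ≤ d := by exact_mod_cast hd
  have hw0 : 0 < w := hw.lt_of_ne (by rintro rfl; rw [zero_div] at hw'; linarith)
  have hee : w' * (1 + w * ((d : ℝ) - 1) / d) < w / d := by
    have hden : 0 < ((d : ℝ) - 1) * w + d := by
      linarith [mul_nonneg (sub_nonneg.2 hdR) hw]
    rw [lt_div_iff₀ hden] at hw'
    rw [lt_div_iff₀ (by linarith), mul_assoc, add_mul, div_mul_cancel₀ _ (by linarith), one_mul]
    linarith
  refine simSet_infinite_of_small fun ε hε => ?_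
  obtain ⟨R, hR⟩ := eventually_atTop.1 (((tendsto_rpow_atTop (div_pos hw0 (by linarith :
    (0 : ℝ) < d))).eventually_ge_atTop 1).and (((tendsto_mul_rpow_neg (1 + 2 * (d : ℝ))
      (sub_pos.2 hee)).eventually_le_const zero_lt_one).and ((tendsto_mul_rpow_neg
        (1 + 2 * (d : ℝ)) (div_pos hw0 (by linarith : (0 : ℝ) < d))).eventually_lt_const hε)))
  obtain ⟨m, ⟨hm, n, hmn⟩, hmR⟩ := exists_norm_gt h R
  obtain ⟨hR1, hR2, hR3⟩ := hR _ hmR.le
  set M : ℝ := ‖m‖ with hM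
  have hM0 : 0 < M := zero_lt_one.trans_le (one_le_norm_intVector hm)
  set N : ℕ := ⌊M ^ (w / d)⌋₊ with hN
  have hN0 : 0 < N := Nat.floor_pos.2 hR1
  have hN1 : (N : ℝ) ≤ M ^ (w / d) := Nat.floor_le (by positivity)
  have hN2 : M ^ (w / d) ≤ 2 * N := by
    have h1 := Nat.lt_floor_add_one (M ^ (w / d))
    have h2 : (1 : ℝ) ≤ N := by exact_mod_cast hN0
    rw [← hN] at h1
    linarith
  have hN3 : (N : ℝ) ^ (d - 1) ≤ M ^ (w * ((d : ℝ) - 1) / d) := by
    refine (pow_le_pow_left₀ (Nat.cast_nonneg N) hN1 _).trans_eq ?_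
    rw [← Real.rpow_natCast (M ^ (w / d)), ← Real.rpow_mul hM0.le, Nat.cast_sub hd, Nat.cast_one]
    ring_nf
  obtain ⟨D, p, hD, hDle, herr⟩ := exists_simultaneous_of_linearForm hd hm hmn hN0
  have hDM : (D : ℝ) ≤ M ^ (1 + w * ((d : ℝ) - 1) / d) := by
    rw [Real.rpow_add hM0, Real.rpow_one]
    exact hDle.trans (mul_le_mul_of_nonneg_left hN3 hM0.le)
  have hsmall : ∀ i, |(D : ℝ) * x i - p i| ≤ (1 + 2 * d) * M ^ (-(w / d)) := fun i => by
    refine (herr i).trans ?_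
    rw [add_mul, one_mul]
    refine add_le_add ?_ ?_
    · calc (D : ℝ) * M ^ (-w) / M ≤ M ^ (1 + w * ((d : ℝ) - 1) / d) * M ^ (-w) / M := by gcongr
        _ = M ^ (-(w / d)) := by
          rw [← Real.rpow_add hM0, ← Real.rpow_sub_one hM0.ne']
          congr 1
          field_simp
          ring
    · rw [Real.rpow_neg hM0.le, ← div_eq_mul_inv,
        div_le_div_iff₀ (by exact_mod_cast hN0) (by positivity)]
      linarith [mul_le_mul_of_nonneg_left hN2 (by linarith : (0 : ℝ) ≤ d)]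
  refine ⟨D, ⟨hD, p, fun i => (hsmall i).trans ?_⟩, p, fun i => (hsmall i).trans_lt hR3⟩
  calc (1 + 2 * (d : ℝ)) * M ^ (-(w / d))
      = (1 + 2 * d) * M ^ (-(w / d - w' * (1 + w * ((d : ℝ) - 1) / d))) *
        (M ^ (1 + w * ((d : ℝ) - 1) / d)) ^ (-w') := by
        rw [← Real.rpow_mul hM0.le, mul_assoc, ← Real.rpow_add hM0]
        ring_nf
    _ ≤ 1 * (M ^ (1 + w * ((d : ℝ) - 1) / d)) ^ (-w') := by gcongr
    _ ≤ _ := by
        rw [one_mul]
        exact Real.rpow_le_rpow_of_nonpos (Nat.cast_pos.2 hD) hDM (by linarith)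

/-- **Very well approximable vectors are those with very small linear forms.** -/
theorem veryWellApproximable_iff (hd : 0 < d) (x : Fin d → ℝ) :
    (∃ w : ℝ, 1 / d < w ∧ (simSet x w).Infinite) ↔
      ∃ w : ℝ, (d : ℝ) < w ∧ (formSet x w).Infinite := by
  have hdR : (0 : ℝ) < d := by exact_mod_cast hd
  constructor
  · rintro ⟨w, hw, h⟩
    rw [div_lt_iff₀ hdR] at hw
    obtain ⟨w', h1, h2⟩ := exists_between (show (d : ℝ) < d * w + d - 1 by linarith)
    exact ⟨w', h1, formSet_infinite_of_simSet hd h h2⟩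
  · rintro ⟨w, hw, h⟩
    have h1d : (1 : ℝ) ≤ d := by exact_mod_cast hd
    have hden : 0 < ((d : ℝ) - 1) * w + d := by
      linarith [mul_nonneg (sub_nonneg.2 h1d) (hdR.le.trans hw.le)]
    obtain ⟨w', h1, h2⟩ := exists_between (show 1 / (d : ℝ) < w / (((d : ℝ) - 1) * w + d) by
      rw [div_lt_div_iff₀ hdR hden]
      linarith)
    exact ⟨w', h1, simSet_infinite_of_formSet hd (hdR.le.trans hw.le) h h2⟩

end FA.Transference
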