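import Fermat.Agent.Transference.Basic
import Fermat.Agent.SchmidtGames.BadVectors

/-!
# Badly approximable vectors and badly approximable linear forms
-/

set_option autoImplicit false

noncomputable section

open Finset

namespace FA.Transference

open FA.SchmidtGames

variable {d : ℕ}

/-- The `x` whose linear form is badly approximable: `|m · x + n| ≥ c / ‖m‖ ^ d`. -/
def badForms (d : ℕ) : Set (Fin d → ℝ) :=
  {x | ∃ c : ℝ, 0 < c ∧ ∀ m : Fin d → ℤ, m ≠ 0 → ∀ n : ℤ,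
    c / ‖m‖ ^ d ≤ |∑ i, (m i : ℝ) * x i + n|}

theorem badForms_subset_badVectors (hd : 0 < d) : badForms d ⊆ badVectors d := by
  rintro x ⟨c, hc, h⟩
  have hdR : (0 : ℝ) < d := by exact_mod_cast hd
  refine ⟨c / (2 * d), by positivity, fun q hq p => ?_⟩
  by_contra! hall
  have hqR : (0 : ℝ) < q := Nat.cast_pos.2 hq
  obtain ⟨m, n, hm, hmq, hmn⟩ := exists_linearForm_of_simultaneous hd hq fun i => (hall i).le
  have hpos : 0 < ‖m‖ := zero_lt_one.trans_le (one_le_norm_intVector hm)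
  have hm1 : ‖m‖ ≤ (q : ℝ) ^ (1 / (d : ℝ)) := by
    have := Real.rpow_le_rpow (pow_nonneg (norm_nonneg m) d) hmq (by positivity : (0 : ℝ) ≤ 1 / d)
    rwa [one_div, Real.pow_rpow_inv_natCast (norm_nonneg _) hd.ne', ← one_div] at this
  have h1 : c / ‖m‖ ^ d ≤ c / 2 / q := by
    refine ((h m hm n).trans hmn).trans (div_le_div_of_nonneg_right ?_ hqR.le)
    calc (d : ℝ) * ‖m‖ * (c / (2 * d) / (q : ℝ) ^ (1 / (d : ℝ)))
        ≤ d * (q : ℝ) ^ (1 / (d : ℝ)) * (c / (2 * d) / (q : ℝ) ^ (1 / (d : ℝ))) := by gcongr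
      _ = c / 2 := by field_simp
  rw [div_le_div_iff₀ (by positivity) hqR] at h1
  linarith [mul_le_mul_of_nonneg_left hmq hc.le, mul_pos hc (pow_pos hpos d)]

theorem badVectors_subset_badForms (hd : 0 < d) : badVectors d ⊆ badForms d := by
  rintro x ⟨c, hc, h⟩
  have hdR : (0 : ℝ) < d := by exact_mod_cast hd
  obtain ⟨L, hL⟩ := exists_nat_gt (2 * (d : ℝ) / c)
  have hLR : (0 : ℝ) < L := lt_trans (by positivity) hL
  have hL0 : 0 < L := by exact_mod_cast hLR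
  refine ⟨c / (2 * (L : ℝ) ^ ((d - 1) + d * (d - 1))), by positivity, fun m hm n => ?_⟩
  by_contra! hlt
  set M : ℝ := ‖m‖ with hM
  have hM1 : 1 ≤ M := one_le_norm_intVector hm
  obtain ⟨i₀, hi₀⟩ := exists_norm_eq_apply hd m
  set Mn := (m i₀).natAbs with hMn
  have hMR : (Mn : ℝ) = M := by rw [hM, hi₀, hMn, Nat.cast_natAbs, Int.cast_abs]
  have hMn0 : 0 < Mn := by
    have h1 : (0 : ℝ) < Mn := by rw [hMR]; linarith
    exact_mod_cast h1
  obtain ⟨D, p, hD, hDle, herr⟩ := exists_simultaneous_of_linearForm hd hm hlt.le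
    (N := L ^ d * Mn) (mul_pos (pow_pos hL0 d) hMn0)
  obtain ⟨i, hi⟩ := h D hD p
  rw [← hM] at hDle herr
  have hDR : (0 : ℝ) < D := Nat.cast_pos.2 hD
  have hDle' : (D : ℝ) ≤ (L : ℝ) ^ (d * (d - 1)) * M ^ d := by
    refine hDle.trans_eq ?_
    rw [Nat.cast_mul, Nat.cast_pow, hMR, mul_pow, ← pow_mul, mul_left_comm, ← pow_succ',
      Nat.sub_add_cancel hd]
  have hroot : (D : ℝ) ^ (1 / (d : ℝ)) ≤ (L : ℝ) ^ (d - 1) * M := by
    have e : (L : ℝ) ^ (d * (d - 1)) * M ^ d = ((L : ℝ) ^ (d - 1) * M) ^ d := by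
      rw [mul_pow, ← pow_mul, mul_comm d]
    have := Real.rpow_le_rpow hDR.le (e ▸ hDle') (by positivity : (0 : ℝ) ≤ 1 / d)
    rwa [one_div, Real.pow_rpow_inv_natCast (by positivity) hd.ne', ← one_div] at this
  have hLd : (L : ℝ) ^ (d - 1) * (L : ℝ) = (L : ℝ) ^ d := by
    rw [← pow_succ, Nat.sub_add_cancel hd]
  have hcast : ((L ^ d * Mn : ℕ) : ℝ) = (L : ℝ) ^ d * M := by
    rw [Nat.cast_mul, Nat.cast_pow, hMR]
  have h1 := herr i
  rw [hcast] at h1
  have h2 : (D : ℝ) * (c / (2 * (L : ℝ) ^ ((d - 1) + d * (d - 1))) / M ^ d) / M ≤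
      c / (2 * ((L : ℝ) ^ (d - 1) * M)) := by
    calc _ ≤ (L : ℝ) ^ (d * (d - 1)) * M ^ d *
          (c / (2 * (L : ℝ) ^ ((d - 1) + d * (d - 1))) / M ^ d) / M := by gcongr
      _ = _ := by rw [pow_add]; field_simp
  have h3 : (d : ℝ) / ((L : ℝ) ^ d * M) < c / (2 * ((L : ℝ) ^ (d - 1) * M)) := by
    rw [← hLd, div_lt_div_iff₀ (by positivity) (by positivity)]
    rw [div_lt_iff₀ hc] at hL
    have := mul_lt_mul_of_pos_right hL (by positivity : 0 < (L : ℝ) ^ (d - 1) * M)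
    linarith
  have h4 : c / ((L : ℝ) ^ (d - 1) * M) ≤ c / (D : ℝ) ^ (1 / (d : ℝ)) :=
    div_le_div_of_nonneg_left hc.le (by positivity) hroot
  have h5 : c / ((L : ℝ) ^ (d - 1) * M) =
      c / (2 * ((L : ℝ) ^ (d - 1) * M)) + c / (2 * ((L : ℝ) ^ (d - 1) * M)) := by ring
  linarith

/-- **A vector is badly approximable iff its linear form is.** -/
theorem badForms_eq_badVectors (hd : 0 < d) : badForms d = badVectors d :=
  (badForms_subset_badVectors hd).antisymm (badVectors_subset_badForms hd)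

end FA.Transference
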